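import Fermat.Agent.SiegelTrace.Main
import Mathlib.NumberTheory.NumberField.Units.Basic
import Mathlib.NumberTheory.NumberField.InfinitePlace.TotallyRealComplex
import Mathlib.RingTheory.Trace.Basic
import Mathlib.Algebra.Ring.SumsOfSquares

/-!
# Real embeddings of a totally real field
-/

set_option autoImplicit false

noncomputable section

namespace Fermat.Agent.SumsOfSquares

open NumberField Polynomial Module

variable {K : Type*} [Field K] [NumberField K]

/-- An embedding into `ℝ`, on the ring of integers. -/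
def ev (σ : K →+* ℝ) : 𝓞 K →+* ℝ := σ.comp (algebraMap (𝓞 K) K)

omit [NumberField K] in
theorem ev_injective (σ : K →+* ℝ) : Function.Injective (ev σ) :=
  σ.injective.comp RingOfIntegers.coe_injective

omit [NumberField K] in
theorem ev_ne_zero (σ : K →+* ℝ) {x : 𝓞 K} (hx : x ≠ 0) : ev σ x ≠ 0 :=
  (map_ne_zero_iff _ (ev_injective σ)).2 hx

/-- Total positivity. -/
def Pos (x : 𝓞 K) : Prop := ∀ σ : K →+* ℝ, 0 < ev σ x

/-- The sum of the real conjugates. -/
def tr (x : 𝓞 K) : ℝ := ∑ σ : K →+* ℝ, ev σ x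

/-- The absolute norm. -/
def nrm (x : 𝓞 K) : ℕ := (Algebra.norm ℤ x).natAbs

theorem tr_add (x y : 𝓞 K) : tr (x + y) = tr x + tr y := by
  simp [tr, Finset.sum_add_distrib]

theorem tr_sub (x y : 𝓞 K) : tr (x - y) = tr x - tr y := by
  simp [tr, Finset.sum_sub_distrib]

theorem tr_natCast (k : ℕ) : tr (k : 𝓞 K) = Fintype.card (K →+* ℝ) * (k : ℝ) := by
  simp [tr]

theorem tr_neg (x : 𝓞 K) : tr (-x) = -tr x := by
  simp [tr]

theorem nrm_ne_zero {x : 𝓞 K} (hx : x ≠ 0) : nrm x ≠ 0 := by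
  rw [nrm, Int.natAbs_ne_zero, Algebra.norm_ne_zero_iff]
  exact hx

omit [NumberField K] in
theorem nrm_mul (x y : 𝓞 K) : nrm (x * y) = nrm x * nrm y := by
  simp [nrm, Int.natAbs_mul]

omit [NumberField K] in
theorem pos_sq {u : 𝓞 K} (hu : u ≠ 0) : Pos (u ^ 2) := fun σ => by
  rw [map_pow]
  have := ev_ne_zero σ hu
  positivity

theorem isUnit_iff_nrm {x : 𝓞 K} : IsUnit x ↔ nrm x = 1 := by
  rw [NumberField.isUnit_iff_norm, RingOfIntegers.coe_norm, ← Algebra.coe_norm_int, nrm, ← Int.cast_abs,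
    Int.abs_eq_natAbs]
  norm_cast

variable [IsTotallyReal K]

variable (K) in
/-- Real and complex embeddings are the same. -/
def realEquiv : (K →+* ℝ) ≃ (K →ₐ[ℚ] ℂ) where
  toFun σ := (Complex.ofRealHom.comp σ).toRatAlgHom
  invFun ψ := (IsTotallyReal.complexEmbedding_isReal ψ.toRingHom).embedding
  left_inv _σ := RingHom.ext fun _ => rfl
  right_inv ψ := AlgHom.ext fun x =>
    ComplexEmbedding.IsReal.coe_embedding_apply
      (IsTotallyReal.complexEmbedding_isReal ψ.toRingHom) x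

theorem realEquiv_apply (σ : K →+* ℝ) (x : K) : realEquiv K σ x = (σ x : ℂ) := rfl

theorem card_emb : Fintype.card (K →+* ℝ) = finrank ℚ K := by
  rw [Fintype.card_congr (realEquiv K), AlgHom.card]

instance nonempty_emb : Nonempty (K →+* ℝ) :=
  Fintype.card_pos_iff.1 (by rw [card_emb]; exact finrank_pos)

theorem tr_eq_trace (x : 𝓞 K) : tr x = (Algebra.trace ℤ (𝓞 K) x : ℝ) := by
  have h := trace_eq_sum_embeddings (K := ℚ) (E := ℂ) (x := (x : K))
  rw [← Algebra.coe_trace_int, ← Equiv.sum_comp (realEquiv K)] at h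
  simp only [realEquiv_apply, map_intCast] at h
  exact_mod_cast h.symm

theorem nrm_eq_prod (x : 𝓞 K) : (nrm x : ℝ) = ∏ σ : K →+* ℝ, |ev σ x| := by
  have h := Algebra.norm_eq_prod_embeddings ℚ ℂ (x : K)
  rw [← Algebra.coe_norm_int, ← Equiv.prod_comp (realEquiv K)] at h
  simp only [realEquiv_apply, map_intCast] at h
  have h' : ((Algebra.norm ℤ x : ℤ) : ℝ) = ∏ σ : K →+* ℝ, ev σ x := by exact_mod_cast h
  rw [nrm, Nat.cast_natAbs, Int.cast_abs, h', Finset.abs_prod]

theorem one_le_prod_abs {x : 𝓞 K} (hx : x ≠ 0) : 1 ≤ ∏ σ : K →+* ℝ, |ev σ x| := by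
  rw [← nrm_eq_prod]
  exact_mod_cast Nat.one_le_iff_ne_zero.2 (nrm_ne_zero hx)

theorem nrm_lt_nrm {x y : 𝓞 K} (hx : Pos x) (hy : Pos y) (h : Pos (y - x)) : nrm x < nrm y := by
  have h' : (nrm x : ℝ) < nrm y := by
    rw [nrm_eq_prod, nrm_eq_prod]
    refine Finset.prod_lt_prod_of_nonempty (fun σ _ => abs_pos.2 (hx σ).ne') (fun σ _ => ?_)
      Finset.univ_nonempty
    rw [abs_of_pos (hx σ), abs_of_pos (hy σ)]
    have := h σ
    rw [map_sub] at this
    linarith
  exact_mod_cast h'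

theorem minpoly_roots (x : 𝓞 K) {z : ℂ} (hz : z ∈ (minpoly ℤ (x : K)).aroots ℂ) :
    ∃ σ : K →+* ℝ, z = ev σ x := by
  have hQ := minpoly.isIntegrallyClosed_eq_field_fractions' ℚ x.isIntegral_coe
  have hz' : z ∈ (minpoly ℚ (x : K)).rootSet ℂ := by
    rw [mem_rootSet_of_ne (minpoly.ne_zero (Algebra.IsIntegral.isIntegral _)), hQ,
      aeval_map_algebraMap]
    exact (mem_aroots.1 hz).2
  rw [← Algebra.IsAlgebraic.range_eval_eq_rootSet_minpoly ℂ (x : K)] at hz'
  obtain ⟨ψ, rfl⟩ := hz'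
  exact ⟨(realEquiv K).symm ψ, (congrArg (fun φ : K →ₐ[ℚ] ℂ => φ x)
    ((realEquiv K).apply_symm_apply ψ)).symm⟩

/-- Siegel's bound with the gap. -/
theorem tr_ge_gap {x : 𝓞 K} (hx : Pos x) (h1 : x ≠ 1) (h2 : x ^ 2 - 3 * x + 1 ≠ 0) :
    31 / 20 * (finrank ℚ K : ℝ) ≤ tr x := by
  set y : K := (x : K)
  have hint : IsIntegral ℤ y := x.isIntegral_coe
  set f := minpoly ℤ y
  have hf : f.Monic := minpoly.monic hint
  have hev : aeval y f = 0 := minpoly.aeval ℤ y
  have hQ : minpoly ℚ y = f.map (algebraMap ℤ ℚ) :=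
    minpoly.isIntegrallyClosed_eq_field_fractions' ℚ hint
  have hroots : (minpoly ℚ y).aroots ℂ = f.aroots ℂ := by
    rw [aroots_def, aroots_def, hQ, Polynomial.map_map, ← IsScalarTower.algebraMap_eq ℤ ℚ ℂ]
  have hgap : 31 / 20 * (f.natDegree : ℝ) ≤ (f.aroots ℂ).sum.re := by
    rw [FA.SiegelTrace.sum_aroots hf, Complex.neg_re, Complex.intCast_re]
    refine FA.SiegelTrace.trace_gap hf (minpoly.irreducible hint) (fun z hz => ?_) (fun z hz => ?_)
      (fun e => h1 ?_) (fun e => h2 ?_)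
    · obtain ⟨σ, rfl⟩ := minpoly_roots x hz
      simp
    · obtain ⟨σ, rfl⟩ := minpoly_roots x hz
      simpa using hx σ
    · rw [e] at hev
      apply RingOfIntegers.coe_injective
      simpa [sub_eq_zero, y] using hev
    · rw [e] at hev
      apply RingOfIntegers.coe_injective
      simp only [map_add, map_sub, map_mul, map_pow, aeval_X, map_one, map_zero, map_ofNat] at hev ⊢
      exact hev
  have hdeg : f.natDegree = finrank ℚ (IntermediateField.adjoin ℚ {y}) := by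
    rw [IntermediateField.adjoin.finrank (Algebra.IsIntegral.isIntegral y), hQ, hf.natDegree_map]
  have hsum : ∑ ψ : K →ₐ[ℚ] ℂ, ψ y =
      finrank (IntermediateField.adjoin ℚ {y}) K • (f.aroots ℂ).sum := by
    rw [← trace_eq_sum_embeddings (K := ℚ) (E := ℂ) (x := y),
      trace_eq_sum_roots (F := ℂ) (IsAlgClosed.splits _), hroots]
  have htr : tr x = (∑ ψ : K →ₐ[ℚ] ℂ, ψ y).re := by
    rw [← Equiv.sum_comp (realEquiv K), Complex.re_sum]
    rfl
  rw [htr, hsum, nsmul_eq_mul, Complex.mul_re, Complex.natCast_re, Complex.natCast_im, zero_mul,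
    sub_zero, ← finrank_mul_finrank ℚ (IntermediateField.adjoin ℚ {y}) K, ← hdeg, Nat.cast_mul]
  have := mul_le_mul_of_nonneg_left hgap
    (Nat.cast_nonneg (finrank (IntermediateField.adjoin ℚ {y}) K) : (0 : ℝ) ≤ _)
  linarith

end Fermat.Agent.SumsOfSquares
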