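import Fermat.Agent.SumsOfSquares.Units
import Fermat.Agent.CyclotomicSquares.MeanSquare

/-!
# An integer of least house outside `ℚ(√5)` has house at most `2`
-/

set_option autoImplicit false

noncomputable section

namespace Fermat.Agent.SumsOfSquares

open NumberField Module

variable {K : Type*} [Field K] [NumberField K]

variable (K) in
/-- The subfield generated by the roots of `x² + x - 1`: `ℚ(√5)` if `√5 ∈ K`, else `ℚ`. -/
def golden : Subfield K := Subfield.closure {s : K | s ^ 2 + s - 1 = 0}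

/-- Membership of an integer in `golden K`. -/
def InF (x : 𝓞 K) : Prop := (x : K) ∈ golden K

omit [NumberField K] in
theorem inF_sum {x : 𝓞 K} {s : Multiset (𝓞 K)ˣ}
    (hx : x = (s.map fun u : (𝓞 K)ˣ => (u : 𝓞 K) ^ 2).sum) (h : ∀ u ∈ s, InF (u : 𝓞 K)) :
    InF x := by
  rw [InF, hx]
  show algebraMap (𝓞 K) K _ ∈ _
  rw [map_multiset_sum, Multiset.map_map]
  refine multiset_sum_mem _ fun y hy => ?_
  obtain ⟨u, hu, rfl⟩ := Multiset.mem_map.1 hy
  simpa using pow_mem (h u hu) 2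

omit [NumberField K] in
theorem inF_of_exceptional {u : 𝓞 K} (h : (u ^ 2) ^ 2 - 3 * u ^ 2 + 1 = 0) : InF u := by
  have h' : ((u : K) ^ 2 + u - 1) * ((u : K) ^ 2 - u - 1) = 0 := by
    have := congrArg (algebraMap (𝓞 K) K) h
    simp only [map_add, map_sub, map_mul, map_pow, map_ofNat, map_one, map_zero] at this
    linear_combination this
  rcases mul_eq_zero.1 h' with h1 | h1
  · exact Subfield.subset_closure h1
  · have : -(u : K) ∈ golden K := Subfield.subset_closure (show _ = _ by linear_combination h1)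
    rw [InF, ← neg_neg (u : K)]
    exact neg_mem this

omit [NumberField K] in
theorem inF_natCast (k : ℕ) : InF (k : 𝓞 K) := by
  simp [InF]

omit [NumberField K] in
theorem inF_intCast (k : ℤ) : InF (k : 𝓞 K) := by
  simp [InF]

variable [IsTotallyReal K]

/-- The largest absolute value of a conjugate. -/
def house' (x : 𝓞 K) : ℝ :=
  Finset.univ.sup' Finset.univ_nonempty fun σ : K →+* ℝ => |ev σ x|

theorem abs_le_house (σ : K →+* ℝ) (x : 𝓞 K) : |ev σ x| ≤ house' x :=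
  Finset.le_sup' (fun σ : K →+* ℝ => |ev σ x|) (Finset.mem_univ σ)

theorem house_neg (x : 𝓞 K) : house' (-x) = house' x := by
  simp [house']

theorem exists_abs_eq_house (x : 𝓞 K) : ∃ σ : K →+* ℝ, |ev σ x| = house' x := by
  obtain ⟨σ, -, h⟩ := Finset.exists_mem_eq_sup' (Finset.univ_nonempty (α := K →+* ℝ))
    fun σ => |ev σ x|
  exact ⟨σ, h.symm⟩

theorem tr_ge {x : 𝓞 K} (hx : Pos x) (h1 : x ≠ 1) : 3 / 2 * (finrank ℚ K : ℝ) ≤ tr x := by
  refine le_trans (FA.CyclotomicSquares.siegel_embeddings x.isIntegral_coe ?_ fun ψ => ?_) ?_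
  · exact fun h => h1 (RingOfIntegers.coe_injective (by simpa using h))
  · rw [← (realEquiv K).apply_symm_apply ψ, realEquiv_apply]
    exact ⟨Complex.ofReal_im _, by simpa [ev] using hx ((realEquiv K).symm ψ)⟩
  · rw [← Equiv.sum_comp (realEquiv K)]
    rfl

theorem tr_unit_sq (u : (𝓞 K)ˣ) (h1 : (u : 𝓞 K) ^ 2 ≠ 1) :
    3 / 2 * (finrank ℚ K : ℝ) ≤ tr ((u : 𝓞 K) ^ 2) ∧
      (InF (u : 𝓞 K) ∨ 31 / 20 * (finrank ℚ K : ℝ) ≤ tr ((u : 𝓞 K) ^ 2)) := by
  refine ⟨tr_ge (pos_sq u.ne_zero) h1, ?_⟩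
  by_cases h2 : ((u : 𝓞 K) ^ 2) ^ 2 - 3 * (u : 𝓞 K) ^ 2 + 1 = 0
  · exact Or.inl (inF_of_exceptional h2)
  · exact Or.inr (tr_ge_gap (pos_sq u.ne_zero) h1 h2)

omit [NumberField K] [IsTotallyReal K] in
theorem sq_le_sum {s : Multiset (𝓞 K)ˣ} {u : (𝓞 K)ˣ} (hu : u ∈ s) (σ : K →+* ℝ) :
    ev σ (u : 𝓞 K) ^ 2 ≤ ev σ (s.map fun u : (𝓞 K)ˣ => (u : 𝓞 K) ^ 2).sum := by
  rw [map_multiset_sum, Multiset.map_map]
  refine Multiset.single_le_sum (fun y hy => ?_) _ (Multiset.mem_map.2 ⟨u, hu, by simp⟩)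
  obtain ⟨v, -, rfl⟩ := Multiset.mem_map.1 hy
  simp only [Function.comp_apply, map_pow]
  exact sq_nonneg _

/-- `x` is of least house among the integers outside `golden K`. -/
def Least (x : 𝓞 K) : Prop := ¬ InF x ∧ ∀ y : 𝓞 K, ¬ InF y → house' x ≤ house' y

theorem exists_least (h : ∃ x : 𝓞 K, ¬ InF x) : ∃ x : 𝓞 K, Least x := by
  obtain ⟨x₀, hx₀⟩ := h
  set S := {x : 𝓞 K | ¬ InF x ∧ house' x ≤ house' x₀}
  have hfin : S.Finite := by
    refine Set.Finite.of_injOn (f := fun x : 𝓞 K => (x : K))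
      (t := {x : K | IsIntegral ℤ x ∧ ∀ φ : K →+* ℂ, ‖φ x‖ ≤ house' x₀}) (fun x hx => ⟨x.isIntegral_coe,
        fun φ => ?_⟩) RingOfIntegers.coe_injective.injOn (Embeddings.finite_of_norm_le K ℂ _)
    rw [show φ = (realEquiv K ((realEquiv K).symm φ.toRatAlgHom)).toRingHom by
      rw [Equiv.apply_symm_apply]; rfl]
    show ‖realEquiv K ((realEquiv K).symm φ.toRatAlgHom) x‖ ≤ _
    rw [realEquiv_apply, Complex.norm_real, Real.norm_eq_abs]
    exact (abs_le_house ((realEquiv K).symm φ.toRatAlgHom) x).trans hx.2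
  obtain ⟨x, hx, hmin⟩ := hfin.exists_minimalFor house' S ⟨x₀, hx₀, le_rfl⟩
  refine ⟨x, hx.1, fun y hy => ?_⟩
  rcases le_total (house' y) (house' x) with h | h
  · exact hmin ⟨hy, h.trans hx.2⟩ h
  · exact h

theorem Least.neg {x : 𝓞 K} (hx : Least x) : Least (-x) := by
  refine ⟨fun h => hx.1 ?_, fun y hy => (house_neg x).le.trans (hx.2 y hy)⟩
  simpa [InF] using neg_mem h

theorem Least.sq_house {x : 𝓞 K} (hx : Least x) (hK : AllSquares K) {k : ℕ}
    (h : Pos (x + (k : 𝓞 K))) : house' x ^ 2 ≤ house' x + k := by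
  obtain ⟨s, hs⟩ := unitSquares_of_pos hK h
  obtain ⟨u, hu, hnu⟩ : ∃ u ∈ s, ¬ InF (u : 𝓞 K) := by
    by_contra! hall
    have := sub_mem (inF_sum hs hall) (inF_natCast (K := K) k)
    exact hx.1 (by simpa [InF] using this)
  obtain ⟨σ, hσ⟩ := exists_abs_eq_house (u : 𝓞 K)
  have h1 : house' x ≤ |ev σ (u : 𝓞 K)| := (hx.2 _ hnu).trans hσ.ge
  have h2 := sq_le_sum hu σ
  rw [← hs, map_add, map_natCast] at h2
  calc house' x ^ 2 ≤ |ev σ (u : 𝓞 K)| ^ 2 :=
        pow_le_pow_left₀ ((abs_nonneg _).trans (abs_le_house σ x)) h1 2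
    _ ≤ house' x + k := by rw [sq_abs]; linarith [(abs_le.1 (abs_le_house σ x)).2]

theorem Least.two_sided {x : 𝓞 K} (hx : Least x) (hK : AllSquares K) (h2 : 2 < house' x) :
    ∃ σ : K →+* ℝ, ev σ x < -2 := by
  by_contra! h
  have hpos : Pos (x + ((2 : ℕ) : 𝓞 K)) := fun σ => by
    rcases (h σ).lt_or_eq with hlt | heq
    · simp only [map_add, map_natCast]; push_cast; linarith
    · have hxe : x = ((-2 : ℤ) : 𝓞 K) := ev_injective σ (by rw [map_intCast, ← heq]; norm_num)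
      exact absurd (hxe ▸ inF_intCast (K := K) (-2)) hx.1
  have := hx.sq_house hK hpos
  push_cast at this
  nlinarith

theorem sum_squares_unit_case {x : 𝓞 K} (hx : ¬ InF x) (hK : AllSquares K) (ht : tr x ≤ 0)
    (hlow : ∃ σ : K →+* ℝ, ev σ x < -2) (hpos : Pos (x + 3)) : IsUnit (x + 3) := by
  obtain ⟨s, hs⟩ := unitSquares_of_pos hK hpos
  obtain ⟨σ, hσ⟩ := hlow
  have hne1 : ∀ u ∈ s, (u : 𝓞 K) ^ 2 ≠ 1 := fun u hu h1 => by
    have h2 := sq_le_sum hu σ
    rw [← hs, ← map_pow, h1, map_one, map_add, map_ofNat] at h2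
    linarith
  have hn : (0 : ℝ) < finrank ℚ K := Nat.cast_pos.2 finrank_pos
  have htr : tr (x + 3) ≤ 3 * finrank ℚ K := by
    rw [tr_add, show (3 : 𝓞 K) = ((3 : ℕ) : 𝓞 K) from rfl, tr_natCast, card_emb]
    push_cast
    linarith
  have hsum : tr (x + 3) = (s.map fun u : (𝓞 K)ˣ => tr ((u : 𝓞 K) ^ 2)).sum := by
    rw [hs]
    clear hne1 htr hs
    induction s using Multiset.induction_on with
    | empty => simp [tr]
    | cons u s ih => rw [Multiset.map_cons, Multiset.sum_cons, tr_add, ih, Multiset.map_cons,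
        Multiset.sum_cons]
  rcases Multiset.empty_or_exists_mem s with rfl | ⟨u, hu⟩
  · simp only [Multiset.map_zero, Multiset.sum_zero] at hs
    exact absurd (hpos σ) (by rw [hs, map_zero]; exact lt_irrefl 0)
  obtain ⟨t, rfl⟩ := Multiset.exists_cons_of_mem hu
  rcases Multiset.empty_or_exists_mem t with rfl | ⟨v, hv⟩
  · rw [hs]
    simp [Units.isUnit]
  obtain ⟨t, rfl⟩ := Multiset.exists_cons_of_mem hv
  simp only [Multiset.map_cons, Multiset.sum_cons] at hsum
  obtain ⟨hu1, hu2⟩ := tr_unit_sq u (hne1 u (by simp))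
  obtain ⟨hv1, hv2⟩ := tr_unit_sq v (hne1 v (by simp))
  have ht0 : t = 0 := by
    by_contra h
    obtain ⟨w, hw⟩ := Multiset.exists_mem_of_ne_zero h
    have h1 : tr ((w : 𝓞 K) ^ 2) ≤ (t.map fun u : (𝓞 K)ˣ => tr ((u : 𝓞 K) ^ 2)).sum := by
      refine Multiset.single_le_sum (fun y hy => ?_) _ (Multiset.mem_map_of_mem _ hw)
      obtain ⟨z, -, rfl⟩ := Multiset.mem_map.1 hy
      exact Finset.sum_nonneg fun τ _ => (pos_sq z.ne_zero τ).le
    linarith [(tr_unit_sq w (hne1 w (by simp [hw]))).1]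
  subst ht0
  simp only [Multiset.map_zero, Multiset.sum_zero, add_zero] at hsum
  rcases hu2 with hu2 | hu2
  · rcases hv2 with hv2 | hv2
    · refine absurd ?_ hx
      have hall : ∀ w ∈ u ::ₘ v ::ₘ 0, InF (w : 𝓞 K) := fun w hw => by
        simp only [Multiset.mem_cons, Multiset.notMem_zero, or_false] at hw
        rcases hw with rfl | rfl <;> assumption
      simpa [InF] using sub_mem (inF_sum hs hall) (inF_natCast (K := K) 3)
    · linarith
  · linarith

/-- **The bound on the house.** -/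
theorem Least.house_le_two {x : 𝓞 K} (hx : Least x) (hK : AllSquares K) : house' x ≤ 2 := by
  by_contra! h
  have hposk : ∀ k : ℕ, house' x < k → Pos (x + (k : 𝓞 K)) := fun k hk σ => by
    rw [map_add, map_natCast]
    linarith [(abs_le.1 (abs_le_house σ x)).1]
  have h3 : house' x < 3 := by
    have h1 := hx.sq_house hK (hposk (⌊house' x⌋₊ + 1) (by exact_mod_cast Nat.lt_floor_add_one _))
    have h2 := Nat.floor_le (le_trans zero_le_two h.le)
    push_cast at h1
    nlinarith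
  have hsq := hx.sq_house hK (hposk 3 (by exact_mod_cast h3))
  push_cast at hsq
  suffices key : ∀ y : 𝓞 K, Least y → house' y = house' x → tr y ≤ 0 → False by
    rcases le_total (tr x) 0 with ht | ht
    · exact key x hx rfl ht
    · exact key (-x) hx.neg (house_neg x) (by rw [tr_neg]; linarith)
  intro y hy hyx ht
  have hy2 : 2 < house' y := by linarith
  obtain ⟨σ₀, hσ₀⟩ := hy.two_sided hK hy2
  have hpos : Pos (y + 3) := fun σ => by
    rw [map_add, map_ofNat]
    linarith [(abs_le.1 (abs_le_house σ y)).1]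
  have hunit := sum_squares_unit_case hy.1 hK ht ⟨σ₀, hσ₀⟩ hpos
  have hne : y + 2 ≠ 0 := fun e => by
    have := congrArg (ev σ₀) e
    rw [map_add, map_ofNat, map_zero] at this
    linarith
  have hbound : house' y ≤ 231 / 100 := by nlinarith
  have hlt : ∏ σ : K →+* ℝ, |ev σ (y + 2)| ^ 2 < ∏ σ : K →+* ℝ, |ev σ (y + 3)| ^ 5 := by
    refine Finset.prod_lt_prod_of_nonempty (fun σ _ => pow_pos (abs_pos.2 (ev_ne_zero σ hne)) 2)
      (fun σ _ => ?_) Finset.univ_nonempty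
    obtain ⟨hlo, hhi⟩ := abs_le.1 ((abs_le_house σ y).trans hbound)
    rw [sq_abs, abs_of_pos (hpos σ), map_add, map_add, map_ofNat, map_ofNat]
    set z := ev σ y + 3
    rw [show ev σ y + 2 = z - 1 by ring]
    have hz : (69 / 100 : ℝ) ≤ z := by linarith
    rcases le_or_gt z 1 with hz1 | hz1
    · have h5 : (69 / 100 : ℝ) ^ 5 ≤ z ^ 5 := pow_le_pow_left₀ (by norm_num) hz 5
      have : (z - 1) ^ 2 ≤ (31 / 100 : ℝ) ^ 2 := by nlinarith
      norm_num at h5 this ⊢
      linarith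
    · have h5 : z ^ 2 ≤ z ^ 5 := pow_le_pow_right₀ hz1.le (by norm_num)
      nlinarith
  rw [Finset.prod_pow, Finset.prod_pow, ← nrm_eq_prod (y + 3), isUnit_iff_nrm.1 hunit,
    Nat.cast_one, one_pow] at hlt
  exact absurd hlt (not_lt.2 (one_le_pow₀ (one_le_prod_abs hne)))

end Fermat.Agent.SumsOfSquares
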