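import Fermat.Agent.SumsOfSquares.Bound
import Fermat.Agent.CyclotomicSquares.TwoCos
import Mathlib.Analysis.SpecialFunctions.Trigonometric.Inverse

/-!
# Every integer lies in `golden K` if every totally positive one is a sum of squares

What is left after the bound on the house are the numbers `2 cos (2π a / m)`.
-/

set_option autoImplicit false

noncomputable section

namespace Fermat.Agent.SumsOfSquares

open NumberField Module Real

variable {K : Type*} [Field K] [NumberField K]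

omit [NumberField K] in
/-- The Chebyshev multiple of `x`. -/
theorem exists_multiple (x : 𝓞 K) : ∀ j : ℕ, ∃ y : 𝓞 K, (InF x → InF y) ∧
    ∀ (σ : K →+* ℝ) (a : ℝ), ev σ x = 2 * cos a → ev σ y = 2 * cos (j * a) := by
  suffices ∀ j : ℕ, ∃ y y' : 𝓞 K, (InF x → InF y ∧ InF y') ∧
      ∀ (σ : K →+* ℝ) (a : ℝ), ev σ x = 2 * cos a →
        ev σ y = 2 * cos (j * a) ∧ ev σ y' = 2 * cos ((j + 1) * a) by
    intro j
    obtain ⟨y, _, hF, hy⟩ := this j
    exact ⟨y, fun h => (hF h).1, fun σ a h => (hy σ a h).1⟩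
  intro j
  induction j with
  | zero => exact ⟨2, x, fun h => ⟨by simpa using inF_natCast (K := K) 2, h⟩,
      fun σ a h => by simp [map_ofNat, h]⟩
  | succ j ih =>
    obtain ⟨y, y', hF, hy⟩ := ih
    refine ⟨y', x * y' - y, fun h => ⟨(hF h).2, ?_⟩, fun σ a h => ?_⟩
    · simpa [InF] using sub_mem (mul_mem h (hF h).2) (hF h).1
    · obtain ⟨h1, h2⟩ := hy σ a h
      refine ⟨by push_cast; exact h2, ?_⟩
      rw [map_sub, map_mul, h, h1, h2, show ((((j + 1 : ℕ) : ℝ)) + 1) * a = (j + 1) * a + a by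
          push_cast; ring,
        show (j : ℝ) * a = (j + 1) * a - a by ring, cos_add, cos_sub]
      ring

variable [IsTotallyReal K]

theorem sq_eq_zero_or_one (hK : AllSquares K) {z : 𝓞 K}
    (hz : ∀ σ : K →+* ℝ, ev σ z ^ 2 ≤ 2) : z ^ 2 = 0 ∨ z ^ 2 = 1 := by
  by_cases he : z ^ 2 - 1 = 0
  · exact Or.inr (sub_eq_zero.1 he)
  obtain ⟨σ⟩ := (nonempty_emb : Nonempty (K →+* ℝ))
  have hle : ∀ τ : K →+* ℝ, |ev τ (z ^ 2 - 1)| ≤ 1 := fun τ => by
    rw [map_sub, map_pow, map_one, abs_le]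
    constructor <;> linarith [hz τ, sq_nonneg (ev τ z)]
  have heq : |ev σ (z ^ 2 - 1)| = 1 := by
    refine le_antisymm (hle σ) (not_lt.1 fun hlt => (one_le_prod_abs he).not_gt ?_)
    calc ∏ τ : K →+* ℝ, |ev τ (z ^ 2 - 1)| < ∏ _τ : K →+* ℝ, (1 : ℝ) :=
          Finset.prod_lt_prod (fun τ _ => abs_pos.2 (ev_ne_zero τ he)) (fun τ _ => hle τ)
            ⟨σ, Finset.mem_univ σ, hlt⟩
      _ = 1 := Finset.prod_const_one
  rcases (abs_eq zero_le_one).1 heq with h | h
  · refine absurd (ev_injective σ ?_) (sq_ne_two hK z)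
    rw [map_ofNat]
    simp only [map_sub, map_one] at h
    linarith
  · refine Or.inl (ev_injective σ ?_)
    rw [map_zero]
    simp only [map_sub, map_one] at h
    linarith

/-- No number `2 cos a` with `cos (j a) = ± sin a`, save `0` and `± 2`. -/
theorem not_quarter (hK : AllSquares K) {x : 𝓞 K} {σ : K →+* ℝ} {a : ℝ}
    (hx : ev σ x = 2 * cos a) (j : ℕ) (hj : cos (j * a) ^ 2 + cos a ^ 2 = 1) :
    x = 0 ∨ x = 2 ∨ x = -2 := by
  obtain ⟨y, -, hy⟩ := exists_multiple x j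
  have h4 : x ^ 2 + y ^ 2 = 4 := ev_injective σ (by
    rw [map_add, map_pow, map_pow, map_ofNat, hx, hy σ a hx]
    linear_combination (4 : ℝ) * hj)
  obtain ⟨z, hz⟩ := two_dvd_of_dvd_sq hK (x := x - y) ⟨2 - x * y, by linear_combination h4⟩
  set w := y + z with hw
  have hx' : x = z + w := by rw [hw]; linear_combination hz
  have h2 : z ^ 2 + w ^ 2 = 2 := by
    refine mul_left_cancel₀ (two_ne_zero : (2 : 𝓞 K) ≠ 0) ?_
    rw [hw]
    linear_combination h4 - (x + 2 * z + y) * hz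
  have hle : ∀ τ : K →+* ℝ, ev τ z ^ 2 ≤ 2 ∧ ev τ w ^ 2 ≤ 2 := fun τ => by
    have := congrArg (ev τ) h2
    rw [map_add, map_pow, map_pow, map_ofNat] at this
    constructor <;> linarith [sq_nonneg (ev τ z), sq_nonneg (ev τ w)]
  rcases sq_eq_zero_or_one hK fun τ => (hle τ).1 with hz0 | hz1
  · exact absurd (by linear_combination h2 - hz0) (sq_ne_two hK w)
  · have hw1 : w ^ 2 = 1 := by linear_combination h2 - hz1
    rcases sq_eq_one_iff.1 hz1 with h | h <;> rcases sq_eq_one_iff.1 hw1 with h' | h' <;>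
      rw [hx', h, h'] <;> norm_num

theorem cos_add_odd_sq (a : ℝ) {p : ℤ} (hp : Odd p) :
    cos (a + p * (π / 2)) ^ 2 = sin a ^ 2 := by
  obtain ⟨l, rfl⟩ := hp
  rw [show a + ((2 * l + 1 : ℤ) : ℝ) * (π / 2) = (a + l * π) + π / 2 by push_cast; ring,
    cos_add_pi_div_two, sin_add_int_mul_pi, neg_sq, mul_pow, ← zpow_natCast, ← zpow_mul]
  simp [zpow_mul, mul_comm l 2]

omit [NumberField K] [IsTotallyReal K] in
theorem not_inF_ne {x : 𝓞 K} (hx : ¬ InF x) (k : ℤ) : x ≠ (k : 𝓞 K) :=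
  fun h => hx (h ▸ inF_intCast k)

/-- The case of an odd denominator. -/
theorem odd_case (hK : AllSquares K) {x : 𝓞 K} (hx : ¬ InF x) {σ : K →+* ℝ} {q : ℚ}
    (hq : ev σ x = 2 * cos (2 * π * q)) (hodd : Odd q.den)
    (hb : ∀ τ : K →+* ℝ, |ev τ x| ≤ 2) : False := by
  set m := q.den with hm
  set p := q.num with hp
  have hqd : (q : ℝ) = p / m := by rw [hm, hp]; exact_mod_cast (Rat.num_div_den q).symm
  have hm0 : (m : ℝ) ≠ 0 := Nat.cast_ne_zero.2 q.den_nz
  obtain ⟨a, b, hab⟩ : IsCoprime p (m : ℤ) := Rat.isCoprime_num_den q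
  set i := (a % (m : ℤ)).toNat with hi
  have hi' : (i : ℤ) = a - m * (a / m) := by
    rw [hi, Int.toNat_of_nonneg (Int.emod_nonneg _ (by exact_mod_cast q.den_nz)), Int.emod_def]
  obtain ⟨y, -, hy⟩ := exists_multiple x i
  set t := 2 * π / m with ht
  have hyt : ev σ y = 2 * cos t := by
    have h1 : ((i : ℤ) : ℝ) = ((a - m * (a / m) : ℤ) : ℝ) := congrArg Int.cast hi'
    have h2 : ((a * p + b * (m : ℤ) : ℤ) : ℝ) = 1 := by rw [hab]; norm_num
    push_cast at h1 h2
    rw [hy σ _ hq, show (i : ℝ) * (2 * π * q) = t + ((-(b + p * (a / m)) : ℤ) : ℝ) * (2 * π) by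
      rw [h1, hqd, ht]
      push_cast
      field_simp
      linear_combination h2, cos_add_int_mul_two_pi]
  have hyb : ∀ τ : K →+* ℝ, |ev τ y| ≤ 2 := fun τ => by
    obtain ⟨hlo, hhi⟩ := abs_le.1 (hb τ)
    rw [hy τ (arccos (ev τ x / 2))
      (by rw [cos_arccos (by linarith) (by linarith)]; ring), abs_mul, abs_two]
    linarith [abs_cos_le_one ((i : ℝ) * arccos (ev τ x / 2))]
  have hyF : ¬ InF y := fun h => by
    obtain ⟨x', hF, hx'⟩ := exists_multiple y p.natAbs
    refine hx ?_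
    convert hF h using 1
    refine ev_injective σ ?_
    rw [hq, hx' σ t hyt, hqd]
    congr 1
    rcases Int.natAbs_eq p with hpa | hpa
    · have : (p : ℝ) = (p.natAbs : ℝ) :=
        (congrArg (Int.cast : ℤ → ℝ) hpa).trans (Int.cast_natCast _)
      rw [this, ht]; ring_nf
    · have : (p : ℝ) = -(p.natAbs : ℝ) := (congrArg (Int.cast : ℤ → ℝ) hpa).trans
        ((Int.cast_neg _).trans (congrArg Neg.neg (Int.cast_natCast _)))
      rw [this, show 2 * π * (-(p.natAbs : ℝ) / m) = -((p.natAbs : ℝ) * t) by rw [ht]; ring, cos_neg]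
  have hm7 : 7 ≤ m := by
    by_contra hlt
    obtain ⟨l, hl⟩ := hodd
    rcases (by omega : m = 1 ∨ m = 3 ∨ m = 5) with h | h | h <;> rw [ht, h] at hyt
    · exact not_inF_ne hyF 2 (ev_injective σ (by rw [hyt, map_intCast]; simp))
    · exact not_inF_ne hyF (-1) (ev_injective σ (by
        rw [hyt, map_intCast, show (2 : ℝ) * π / ((3 : ℕ) : ℝ) = π - π / 3 by push_cast; ring,
          cos_pi_sub, cos_pi_div_three]
        norm_num))
    · refine hyF (Subfield.subset_closure ?_)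
      have h5 : y ^ 2 + y - 1 = 0 := ev_injective σ (by
        rw [map_sub, map_add, map_pow, hyt, map_one, map_zero,
          show (2 : ℝ) * π / ((5 : ℕ) : ℝ) = 2 * (π / 5) by push_cast; ring, cos_two_mul,
          cos_pi_div_five]
        have h : √5 ^ 2 = 5 := sq_sqrt (by norm_num)
        linear_combination ((√5 ^ 2 + 4 * √5 - 1) / 16) * h)
      simpa using congrArg (algebraMap (𝓞 K) K) h5
  have hn : (0 : ℝ) < finrank ℚ K := Nat.cast_pos.2 finrank_pos
  have hy1 : y ^ 2 ≠ 1 := fun h => by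
    rcases sq_eq_one_iff.1 h with h | h
    · exact not_inF_ne hyF 1 (by simpa using h)
    · exact not_inF_ne hyF (-1) (by simpa using h)
  have hy0 : y ≠ 0 := fun h => not_inF_ne hyF 0 (by simpa using h)
  have htry : 31 / 20 * (finrank ℚ K : ℝ) ≤ tr (y ^ 2) :=
    tr_ge_gap (pos_sq hy0) hy1 fun h => hyF (inF_of_exceptional h)
  have hpos : Pos (4 - y ^ 2) := fun τ => by
    rw [map_sub, map_pow, map_ofNat, sub_pos, ← sq_abs]
    refine lt_of_le_of_ne (by nlinarith [hyb τ, abs_nonneg (ev τ y)]) fun h => ?_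
    rw [sq_abs] at h
    have : y ^ 2 = 2 ^ 2 := ev_injective τ (by rw [map_pow, map_pow, map_ofNat, h]; norm_num)
    rcases sq_eq_sq_iff_eq_or_eq_neg.1 this with h | h
    · exact not_inF_ne hyF 2 (by simpa using h)
    · exact not_inF_ne hyF (-2) (by simpa using h)
  obtain ⟨s, hs⟩ := unitSquares_of_pos hK hpos
  have htot : (s.map fun u : (𝓞 K)ˣ => tr ((u : 𝓞 K) ^ 2)).sum ≤
      49 / 20 * (finrank ℚ K : ℝ) := by
    have h1 : tr (4 - y ^ 2) = (s.map fun u : (𝓞 K)ˣ => tr ((u : 𝓞 K) ^ 2)).sum := by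
      rw [hs]
      clear hs
      induction s using Multiset.induction_on with
      | empty => simp [tr]
      | cons u s ih => rw [Multiset.map_cons, Multiset.sum_cons, tr_add, ih, Multiset.map_cons,
          Multiset.sum_cons]
    rw [← h1, tr_sub, show (4 : 𝓞 K) = ((4 : ℕ) : 𝓞 K) from rfl, tr_natCast, card_emb]
    push_cast
    linarith
  have hterm : ∀ u : (𝓞 K)ˣ, ((u : 𝓞 K) ^ 2 = 1 ∧ tr ((u : 𝓞 K) ^ 2) = finrank ℚ K) ∨
      3 / 2 * (finrank ℚ K : ℝ) ≤ tr ((u : 𝓞 K) ^ 2) := fun u => by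
    by_cases h : (u : 𝓞 K) ^ 2 = 1
    · refine Or.inl ⟨h, ?_⟩
      rw [h, show (1 : 𝓞 K) = ((1 : ℕ) : 𝓞 K) by simp, tr_natCast, card_emb]
      simp
    · exact Or.inr (tr_unit_sq u h).1
  rcases Multiset.empty_or_exists_mem s with rfl | ⟨u, hu⟩
  · simp only [Multiset.map_zero, Multiset.sum_zero] at hs
    exact absurd (hpos σ) (by rw [hs, map_zero]; exact lt_irrefl 0)
  obtain ⟨s, rfl⟩ := Multiset.exists_cons_of_mem hu
  rcases Multiset.empty_or_exists_mem s with rfl | ⟨v, hv⟩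
  · simp only [Multiset.map_cons, Multiset.map_zero, Multiset.sum_cons, Multiset.sum_zero,
      add_zero] at hs
    have hus : ev σ (u : 𝓞 K) ^ 2 = (2 * sin t) ^ 2 := by
      rw [← map_pow, ← hs, map_sub, map_pow, map_ofNat, hyt]
      linear_combination (-4 : ℝ) * sin_sq_add_cos_sq t
    have hmr : (4 : ℝ) ≤ m := by exact_mod_cast le_trans (by norm_num) hm7
    obtain ⟨w, hw⟩ : ∃ w : 𝓞 K, (w = u ∨ w = -u) ∧ ev σ w = 2 * cos (π / 2 - t) := by
      rw [cos_pi_div_two_sub]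
      rcases sq_eq_sq_iff_eq_or_eq_neg.1 hus with h | h
      · exact ⟨u, Or.inl rfl, h⟩
      · exact ⟨-u, Or.inr rfl, by rw [map_neg, h, neg_neg]⟩
    have hwq : ((m + 1 : ℕ) : ℝ) * (π / 2 - t) = (π / 2 - t) + ((m - 4 : ℤ) : ℝ) * (π / 2) := by
      rw [ht]; push_cast; field_simp; ring
    have hmodd : Odd ((m : ℤ) - 4) := by
      obtain ⟨l, hl⟩ := hodd
      exact ⟨l - 2, by omega⟩
    have hwu : IsUnit w := by
      rcases hw.1 with h | h <;> rw [h]
      exacts [u.isUnit, u.isUnit.neg]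
    have h2u : ¬ IsUnit (2 : 𝓞 K) := fun h => by
      have := nrm_eq_prod (2 : 𝓞 K)
      rw [isUnit_iff_nrm.1 h] at this
      simp [map_ofNat, card_emb] at this
      linarith [one_lt_pow₀ (one_lt_two (α := ℝ)) (finrank_pos (R := ℚ) (M := K)).ne']
    rcases not_quarter hK hw.2 (m + 1)
      (by rw [hwq, cos_add_odd_sq _ hmodd]; exact sin_sq_add_cos_sq _) with h | h | h <;>
      rw [h] at hwu
    · exact not_isUnit_zero hwu
    · exact h2u hwu
    · exact h2u (by simpa using hwu.neg)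
  · obtain ⟨s, rfl⟩ := Multiset.exists_cons_of_mem hv
    simp only [Multiset.map_cons, Multiset.sum_cons] at hs htot
    rcases Multiset.empty_or_exists_mem s with rfl | ⟨w, hw⟩
    · simp only [Multiset.map_zero, Multiset.sum_zero, add_zero] at hs htot
      rcases hterm u with ⟨hu1, hu2⟩ | hu2 <;> rcases hterm v with ⟨hv1, hv2⟩ | hv2 <;>
        try linarith
      rw [hu1, hv1] at hs
      exact sq_ne_two hK y (by linear_combination -hs)
    · obtain ⟨s, rfl⟩ := Multiset.exists_cons_of_mem hw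
      have hnn : 0 ≤ (s.map fun u : (𝓞 K)ˣ => tr ((u : 𝓞 K) ^ 2)).sum :=
        Multiset.sum_nonneg fun z hz => by
          obtain ⟨e, -, rfl⟩ := Multiset.mem_map.1 hz
          exact Finset.sum_nonneg fun τ _ => (pos_sq e.ne_zero τ).le
      simp only [Multiset.map_cons, Multiset.sum_cons] at htot
      rcases hterm u with ⟨-, hu2⟩ | hu2 <;> rcases hterm v with ⟨-, hv2⟩ | hv2 <;>
        rcases hterm w with ⟨-, hw2⟩ | hw2 <;> linarith

/-- Every integer lies in `golden K`. -/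
theorem all_inF (hK : AllSquares K) (x₀ : 𝓞 K) : InF x₀ := by
  by_contra hx₀
  obtain ⟨x, hx⟩ := exists_least ⟨x₀, hx₀⟩
  have hb : ∀ τ : K →+* ℝ, |ev τ x| ≤ 2 := fun τ =>
    (abs_le_house τ x).trans (hx.house_le_two hK)
  obtain ⟨σ⟩ := (nonempty_emb : Nonempty (K →+* ℝ))
  obtain ⟨q, hq⟩ : ∃ q : ℚ, ev σ x = 2 * cos (2 * π * q) := by
    have hmem : ((ev σ x : ℝ) : ℂ) ∈ (minpoly ℤ (x : K)).aroots ℂ := by
      refine Polynomial.mem_aroots.2 ⟨minpoly.ne_zero x.isIntegral_coe, ?_⟩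
      rw [show ((ev σ x : ℝ) : ℂ) = (Complex.ofRealHom.comp σ).toIntAlgHom (x : K) from rfl,
        Polynomial.aeval_algHom_apply, minpoly.aeval, map_zero]
    obtain ⟨q, hq⟩ := FA.CyclotomicSquares.exists_two_cos (minpoly.monic x.isIntegral_coe)
      (fun z hz => by
        obtain ⟨τ, rfl⟩ := minpoly_roots x hz
        exact ⟨Complex.ofReal_im _, by simpa using hb τ⟩) hmem
    exact ⟨q, by exact_mod_cast hq⟩
  rcases Nat.even_or_odd q.den with he | ho
  swap
  · exact odd_case hK hx.1 hq ho hb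
  obtain ⟨h, hh⟩ := he
  have hpodd : Odd q.num := by
    rcases Int.even_or_odd q.num with hpe | hpo
    · exfalso
      have h1 : (2 : ℕ) ∣ q.num.natAbs := by
        rw [← Int.natCast_dvd]; exact_mod_cast hpe.two_dvd
      have h2 : (2 : ℕ) ∣ q.den := ⟨h, by omega⟩
      exact absurd (Nat.dvd_gcd h1 h2) (by rw [q.reduced]; norm_num)
    · exact hpo
  have hh0 : (h : ℝ) ≠ 0 := Nat.cast_ne_zero.2 (by have := q.den_pos; omega)
  have hqd : (q : ℝ) = q.num / (2 * h) := by
    rw [show ((2 : ℝ) * h) = ((q.den : ℕ) : ℝ) by rw [hh]; push_cast; ring]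
    exact_mod_cast (Rat.num_div_den q).symm
  rcases Nat.even_or_odd h with ⟨r, hr⟩ | ho
  · have hj : cos (((r + 1 : ℕ) : ℝ) * (2 * π * q)) ^ 2 + cos (2 * π * q) ^ 2 = 1 := by
      rw [show ((r + 1 : ℕ) : ℝ) * (2 * π * q) = 2 * π * q + q.num * (π / 2) by
        rw [hqd, hr]
        push_cast
        have : (r : ℝ) ≠ 0 := fun e => hh0 (by rw [hr]; push_cast; rw [e]; ring)
        field_simp
        ring, cos_add_odd_sq _ hpodd]
      exact sin_sq_add_cos_sq _
    rcases not_quarter hK hq (r + 1) hj with e | e | e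
    · exact not_inF_ne hx.1 0 (by simpa using e)
    · exact not_inF_ne hx.1 2 (by simpa using e)
    · exact not_inF_ne hx.1 (-2) (by simpa using e)
  · obtain ⟨l, hl⟩ : Even (q.num + h) := hpodd.add_odd (by exact_mod_cast ho)
    have hden : Odd (Rat.divInt l h).den := by
      refine ho.of_dvd_nat ?_
      exact_mod_cast Rat.den_dvd l h
    refine odd_case hK hx.neg.1 (σ := σ) (q := Rat.divInt l h) ?_ hden
      (fun τ => by rw [map_neg, abs_neg]; exact hb τ)
    have hlr : (q.num : ℝ) + h = l + l := by exact_mod_cast hl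
    rw [map_neg, hq, Rat.divInt_eq_div]
    push_cast
    rw [show (2 : ℝ) * π * ((l : ℝ) / h) = 2 * π * q + π by
      rw [hqd]
      field_simp
      linear_combination -hlr, cos_add_pi]
    ring

end Fermat.Agent.SumsOfSquares
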