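import Fermat.Agent.SumsOfSquares.Cosines
import Mathlib.FieldTheory.IntermediateField.Adjoin.Basic

/-!
# Siegel's theorem on sums of squares in totally real fields
-/

set_option autoImplicit false

noncomputable section

namespace Fermat.Agent.SumsOfSquares

open NumberField Module

variable {K : Type*} [Field K] [NumberField K] [IsTotallyReal K]

theorem golden_eq_top (hK : AllSquares K) : golden K = ⊤ := by
  refine eq_top_iff.2 fun z _ => ?_
  obtain ⟨k, hk, hkz⟩ :=
    ((IsFractionRing.isAlgebraic_iff ℤ ℚ K).2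
      (Algebra.IsAlgebraic.isAlgebraic (R := ℚ) z)).exists_integral_multiple
  have h : k • z ∈ golden K := all_inF hK ⟨k • z, hkz⟩
  have hk' : (k : K) ≠ 0 := Int.cast_ne_zero.2 hk
  rw [zsmul_eq_mul] at h
  simpa [hk'] using mul_mem (inv_mem (intCast_mem (golden K) k)) h

/-- **Siegel's theorem**, the hard half. -/
theorem degree_of_allSquares (hK : AllSquares K) :
    finrank ℚ K = 1 ∨ (finrank ℚ K = 2 ∧ ∃ r : K, r ^ 2 = 5) := by
  have htop := golden_eq_top hK
  by_cases hex : ∃ s : K, s ^ 2 + s - 1 = 0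
  · obtain ⟨s, hs⟩ := hex
    set E := IntermediateField.adjoin ℚ ({s} : Set K)
    have hle : golden K ≤ E.toSubfield := Subfield.closure_le.2 fun t ht => by
      have hs' : s ∈ E := IntermediateField.mem_adjoin_simple_self ℚ s
      have ht' : t ^ 2 + t - 1 = 0 := ht
      have h : (t - s) * (t + s + 1) = 0 := by linear_combination ht' - hs
      rcases mul_eq_zero.1 h with h | h
      · rwa [sub_eq_zero.1 h]
      · rw [show t = -s - 1 by linear_combination h]
        exact E.sub_mem (E.neg_mem hs') E.one_mem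
    have hE : E = ⊤ := eq_top_iff.2 fun z _ => hle (htop ▸ Subfield.mem_top z)
    have hfin : finrank ℚ K = (minpoly ℚ s).natDegree := by
      rw [← IntermediateField.adjoin.finrank (Algebra.IsIntegral.isIntegral s),
        show IntermediateField.adjoin ℚ ({s} : Set K) = ⊤ from hE, IntermediateField.finrank_top']
    have hdeg : (minpoly ℚ s).natDegree ≤ 2 := by
      have hmon : (Polynomial.X ^ 2 + Polynomial.X - Polynomial.C 1 : Polynomial ℚ).Monic := by
        monicity!
      refine (Polynomial.natDegree_le_of_dvd (minpoly.dvd ℚ s ?_) hmon.ne_zero).trans ?_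
      · simp [hs]
      · compute_degree!
    have hpos : 0 < finrank ℚ K := finrank_pos
    rcases (by omega : finrank ℚ K = 1 ∨ finrank ℚ K = 2) with h | h
    · exact Or.inl h
    · exact Or.inr ⟨h, 2 * s + 1, by linear_combination 4 * hs⟩
  · left
    have hemp : {s : K | s ^ 2 + s - 1 = 0} = ∅ :=
      Set.eq_empty_iff_forall_notMem.2 fun s hs => hex ⟨s, hs⟩
    have hbot : (⊥ : IntermediateField ℚ K) = ⊤ := by
      refine eq_top_iff.2 fun z _ => ?_
      have hz : z ∈ golden K := htop ▸ Subfield.mem_top z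
      rw [golden, hemp] at hz
      exact (Subfield.closure_le (t := (⊥ : IntermediateField ℚ K).toSubfield)).2
        (Set.empty_subset _) hz
    rw [← IntermediateField.finrank_top', ← hbot, IntermediateField.finrank_bot]

theorem allSquares_of_finrank_one (h : finrank ℚ K = 1) : AllSquares K := by
  intro x hx
  obtain ⟨q, hq⟩ := (finrank_eq_one_iff_of_nonzero' (1 : K) one_ne_zero).1 h (x : K)
  have hqi : IsIntegral ℤ q := by
    refine (isIntegral_algHom_iff (Algebra.ofId ℚ K |>.restrictScalars ℤ)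
      (algebraMap ℚ K).injective).1 ?_
    simpa [← hq, Rat.smul_one_eq_cast] using x.isIntegral_coe
  obtain ⟨k, hk⟩ := IsIntegrallyClosed.isIntegral_iff.1 hqi
  have hxk : x = (k : 𝓞 K) := RingOfIntegers.coe_injective (by
    show (x : K) = ((k : 𝓞 K) : K)
    rw [← hq, ← hk]; simp [Rat.smul_one_eq_cast])
  obtain ⟨σ⟩ := (nonempty_emb : Nonempty (K →+* ℝ))
  have hk0 : 0 < (k : ℝ) := by simpa [hxk] using hx σ
  lift k to ℕ using (by exact_mod_cast hk0.le)
  rw [hxk, Int.cast_natCast]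
  exact IsSumSq.natCast k

/-- The descent in `ℤ[φ]`: `a = s²` and `b = (s + 1)²` are inverse squares of units. -/
theorem allSquares_of_sqrt_five (h : finrank ℚ K = 2) {r : K} (hr : r ^ 2 = 5) :
    AllSquares K := by
  have hs0 : ((r - 1) / 2) ^ 2 + (r - 1) / 2 - 1 = 0 := by linear_combination hr / 4
  have hint : IsIntegral ℤ ((r - 1) / 2) :=
    ⟨Polynomial.X ^ 2 + Polynomial.X - Polynomial.C 1, by monicity!, by simpa using hs0⟩
  set s : 𝓞 K := ⟨(r - 1) / 2, hint⟩
  have hs : s ^ 2 + s - 1 = 0 := RingOfIntegers.coe_injective (by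
    simp only [map_sub, map_add, map_pow, map_one, map_zero]
    exact hs0)
  classical
  obtain ⟨σ, τ, hστ, huniv⟩ := Finset.card_eq_two.1 (by rw [Finset.card_univ, card_emb, h] :
    (Finset.univ : Finset (K →+* ℝ)).card = 2)
  have htr : ∀ x : 𝓞 K, tr x = ev σ x + ev τ x := fun x => by
    rw [tr, huniv, Finset.sum_pair hστ]
  have hroot : ∀ ψ : K →+* ℝ, ev ψ s ^ 2 + ev ψ s - 1 = 0 := fun ψ => by
    simpa using congrArg (ev ψ) hs
  have hsum : ev σ s + ev τ s = -1 := by
    rcases mul_eq_zero.1 (show (ev σ s - ev τ s) * (ev σ s + ev τ s + 1) = 0 by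
      linear_combination hroot σ - hroot τ) with h' | h'
    · exfalso
      have hk := tr_eq_trace s
      rw [htr, ← sub_eq_zero.1 h'] at hk
      set k := Algebra.trace ℤ (𝓞 K) s
      have hk2 : ((k ^ 2 + 2 * k - 4 : ℤ) : ℝ) = 0 := by
        push_cast; rw [← hk]; linear_combination 4 * hroot σ
      have hk3 : k ^ 2 + 2 * k - 4 = 0 := by exact_mod_cast hk2
      have h1 : k ≤ 1 := by nlinarith
      have h2 : -4 ≤ k := by nlinarith
      interval_cases k <;> omega
    · linarith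
  suffices main : ∀ ρ ρ' : K →+* ℝ, (∀ x, tr x = ev ρ x + ev ρ' x) →
      ev ρ s + ev ρ' s = -1 → 1 < ev ρ s ^ 2 → (∀ ψ, ψ = ρ ∨ ψ = ρ') → AllSquares K by
    have hcases : ∀ ψ : K →+* ℝ, ψ = σ ∨ ψ = τ := fun ψ => by
      have := Finset.mem_univ ψ
      rw [huniv] at this
      simpa using this
    rcases lt_trichotomy (ev σ s ^ 2) 1 with hlt | heq | hgt
    · refine main τ σ (fun x => by rw [htr, add_comm]) (by linarith) ?_ (fun ψ => (hcases ψ).symm)
      have : ev τ s = -1 - ev σ s := by linarith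
      rw [this]
      nlinarith [hroot σ]
    · exfalso
      nlinarith [hroot σ]
    · exact main σ τ htr hsum hgt hcases
  intro ρ ρ' htr hsum hc hcases
  have hprod : ev ρ s * ev ρ' s = -1 := by
    linear_combination (ev ρ s) * hsum - hroot ρ
  set c := ev ρ s ^ 2 with hcdef
  have hc0 : 0 < c := by linarith
  have hb : ∀ ψ : K →+* ℝ, ev ψ ((s + 1) ^ 2) * ev ψ (s ^ 2) = 1 := fun ψ => by
    rw [map_pow, map_pow, map_add, map_one]
    linear_combination (ev ψ s ^ 2 + ev ψ s + 1) * hroot ψ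
  have hcρ : ev ρ (s ^ 2) = c := map_pow _ _ _
  have hcρ' : ev ρ' (s ^ 2) = c⁻¹ := by
    refine eq_inv_of_mul_eq_one_right ?_
    rw [hcdef, map_pow, ← mul_pow, hprod, neg_one_sq]
  have hc3 : c + c⁻¹ = 3 := by
    rw [← hcρ', hcdef, map_pow]
    linear_combination (ev ρ s + ev ρ' s - 1) * hsum - 2 * hprod
  intro x hx
  obtain ⟨m, hm⟩ : ∃ m : ℕ, tr x ≤ m := ⟨⌈tr x⌉₊, Nat.le_ceil _⟩
  induction m using Nat.strong_induction_on generalizing x with
  | _ m ih =>
  have hz : ∀ y : 𝓞 K, ∃ k : ℤ, tr y = k := fun y => ⟨_, tr_eq_trace y⟩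
  have hpx : 0 < ev ρ x := hx ρ
  have hpx' : 0 < ev ρ' x := hx ρ'
  have hstep : ∀ y : 𝓞 K, Pos y → tr y < tr x → IsSumSq y := fun y hy hlt => by
    obtain ⟨k, hk⟩ := hz y
    obtain ⟨l, hl⟩ := hz x
    have hk0 : (0 : ℝ) < k := by rw [← hk, htr]; exact add_pos (hy ρ) (hy ρ')
    have hkl : k < l := by exact_mod_cast hk ▸ hl ▸ hlt
    have hlm : l ≤ m := by exact_mod_cast hl ▸ hm
    have hk0' : 0 < k := by exact_mod_cast hk0
    refine ih k.toNat (by omega) y hy ?_
    rw [hk, ← Int.cast_natCast k.toNat, Int.toNat_of_nonneg hk0'.le]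
  have hmul : ∀ u : 𝓞 K, ∀ y : 𝓞 K, IsSumSq y → IsSumSq (u ^ 2 * y) := fun u y hy => by
    rw [sq]; exact (IsSumSq.mul_self u).mul hy
  have hsq1 : ∀ ψ : K →+* ℝ, 0 < ev ψ (s ^ 2) ∧ 0 < ev ψ ((s + 1) ^ 2) := fun ψ => by
    rw [map_pow, map_pow]
    have h1 := hb ψ
    rw [map_pow, map_pow] at h1
    exact ⟨lt_of_le_of_ne (sq_nonneg _) fun e => by rw [← e, mul_zero] at h1; exact zero_ne_one h1,
      lt_of_le_of_ne (sq_nonneg _) fun e => by rw [← e, zero_mul] at h1; exact zero_ne_one h1⟩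
  have hid : (s + 1) ^ 2 * (s ^ 2 * x) = x ∧ s ^ 2 * ((s + 1) ^ 2 * x) = x := by
    constructor <;> linear_combination ((s ^ 2 + s + 1) * x) * hs
  have hbρ : ev ρ ((s + 1) ^ 2) = c⁻¹ := eq_inv_of_mul_eq_one_left (hcρ ▸ hb ρ)
  have hbρ' : ev ρ' ((s + 1) ^ 2) = c := by
    have := hb ρ'
    rw [hcρ'] at this
    rwa [mul_inv_eq_one₀ hc0.ne'] at this
  have hρρ : ρ ≠ ρ' := fun e => by
    rw [e] at hsum hprod
    nlinarith
  by_cases h1 : tr (s ^ 2 * x) < tr x
  · rw [← hid.1]
    exact hmul _ _ (hstep _ (fun ψ => by rw [map_mul]; exact mul_pos (hsq1 ψ).1 (hx ψ)) h1)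
  by_cases h2 : tr ((s + 1) ^ 2 * x) < tr x
  · rw [← hid.2]
    exact hmul _ _ (hstep _ (fun ψ => by rw [map_mul]; exact mul_pos (hsq1 ψ).2 (hx ψ)) h2)
  rw [htr, htr, map_mul, map_mul, hcρ, hcρ', not_lt] at h1
  rw [htr, htr, map_mul, map_mul, hbρ, hbρ', not_lt] at h2
  have hci : c⁻¹ = 3 - c := by linarith
  rw [hci] at h1 h2
  have hcq : c * (3 - c) = 1 := by rw [← hci]; exact mul_inv_cancel₀ hc0.ne'
  have hyx : ev ρ' x ≤ c * ev ρ x := by nlinarith
  have hxy : ev ρ x ≤ c * ev ρ' x := by nlinarith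
  by_cases hbig : 1 < ev ρ x ∧ 1 < ev ρ' x
  · have hp : Pos (x - 1) := fun ψ => by
      rw [map_sub, map_one]
      rcases hcases ψ with rfl | rfl <;> linarith [hbig.1, hbig.2]
    rw [show x = 1 * 1 + (x - 1) by ring]
    refine IsSumSq.sq_add 1 (hstep _ hp ?_)
    rw [htr, htr, map_sub, map_sub, map_one, map_one]
    linarith
  have hc4 : c < 3 := by nlinarith
  have hTlt : ev ρ x + ev ρ' x < 4 := by
    rw [not_and_or, not_lt, not_lt] at hbig
    rcases hbig with h | h <;> nlinarith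
  have hN : (1 : ℝ) ≤ ev ρ x * ev ρ' x := by
    have hne : x ≠ 0 := fun e => by simp [e] at hpx
    have h := one_le_prod_abs hne
    rw [show (Finset.univ : Finset (K →+* ℝ)) = {ρ, ρ'} from
      (Finset.eq_univ_of_forall fun ψ => by simpa using hcases ψ).symm,
      Finset.prod_pair hρρ, abs_of_pos hpx, abs_of_pos hpx'] at h
    exact h
  obtain ⟨T, hT⟩ := hz x
  rw [htr] at hT
  have hT2 : (2 : ℝ) ≤ T := by
    rw [← hT]
    by_contra hlt
    have hsq : (ev ρ x + ev ρ' x) ^ 2 = (ev ρ x - ev ρ' x) ^ 2 + 4 * (ev ρ x * ev ρ' x) := by ring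
    have := pow_lt_pow_left₀ (not_le.1 hlt) (by linarith) two_ne_zero
    linarith [sq_nonneg (ev ρ x - ev ρ' x)]
  have hTa : 2 ≤ T := by exact_mod_cast hT2
  have hTb : T < 4 := by exact_mod_cast hT ▸ hTlt
  obtain ⟨N, hNeq⟩ : ∃ N : ℕ, ev ρ x * ev ρ' x = N := ⟨nrm x, by
    rw [nrm_eq_prod, show (Finset.univ : Finset (K →+* ℝ)) = {ρ, ρ'} from
      (Finset.eq_univ_of_forall fun ψ => by simpa using hcases ψ).symm,
      Finset.prod_pair hρρ, abs_of_pos hpx, abs_of_pos hpx']⟩
  interval_cases T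
  · have he : ev ρ x = 1 := by
      push_cast at hT
      have hsq : (ev ρ x - ev ρ' x) ^ 2 = 4 - 4 * (ev ρ x * ev ρ' x) := by
        linear_combination (ev ρ x + ev ρ' x + 2) * hT
      have h0 : (ev ρ x - ev ρ' x) ^ 2 = 0 := le_antisymm (by linarith) (sq_nonneg _)
      linarith [sub_eq_zero.1 (sq_eq_zero_iff.1 h0)]
    rw [ev_injective ρ (show ev ρ x = ev ρ 1 by rw [he, map_one])]
    exact IsSumSq.one
  · push_cast at hT
    have hN3 : N ≤ 2 := by
      by_contra hN3
      have : (3 : ℝ) ≤ N := by exact_mod_cast (by omega : 3 ≤ N)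
      have hsq : (ev ρ x - ev ρ' x) ^ 2 = 9 - 4 * (ev ρ x * ev ρ' x) := by
        linear_combination (ev ρ x + ev ρ' x + 3) * hT
      linarith [sq_nonneg (ev ρ x - ev ρ' x)]
    have hN1 : 1 ≤ N := by exact_mod_cast hNeq ▸ hN
    have hquad : ev ρ x ^ 2 - 3 * ev ρ x + N = 0 := by
      linear_combination (ev ρ x) * hT - hNeq
    interval_cases N
    · have hsplit : (x - s ^ 2) * (x - (s + 1) ^ 2) = 0 := ev_injective ρ (by
        rw [map_mul, map_sub, map_sub, hcρ, hbρ, map_zero, hci]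
        push_cast at hquad
        linear_combination hquad + hcq)
      rcases mul_eq_zero.1 hsplit with e | e <;> rw [sub_eq_zero.1 e, sq] <;>
        exact IsSumSq.mul_self _
    · exfalso
      have h12 : (x - 1) * (x - 2) = 0 := ev_injective ρ (by
        rw [map_mul, map_sub, map_sub, map_one, map_ofNat, map_zero]
        push_cast at hquad
        linear_combination hquad)
      rcases mul_eq_zero.1 h12 with e | e <;>
        rw [sub_eq_zero.1 e] at hT <;> simp only [map_one, map_ofNat] at hT <;> norm_num at hT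

/-- **Siegel's theorem.** -/
theorem allSquares_iff :
    AllSquares K ↔ finrank ℚ K = 1 ∨ (finrank ℚ K = 2 ∧ ∃ r : K, r ^ 2 = 5) := by
  refine ⟨degree_of_allSquares, ?_⟩
  rintro (h | ⟨h, r, hr⟩)
  · exact allSquares_of_finrank_one h
  · exact allSquares_of_sqrt_five h hr

end Fermat.Agent.SumsOfSquares
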