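import Fermat.Agent.SumsOfSquares.Basic
import Mathlib.NumberTheory.NumberField.Units.DirichletTheorem
import Mathlib.LinearAlgebra.FreeModule.IdealQuotient

/-!
# Consequences of every totally positive integer being a sum of squares

All signatures occur among units, every totally positive integer is a sum of unit squares, and the
squaring map modulo `2` is bijective.
-/

set_option autoImplicit false

noncomputable section

namespace Fermat.Agent.SumsOfSquares

open NumberField Module NumberField.Units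

variable {K : Type*} [Field K] [NumberField K]

variable (K) in
/-- Every totally positive integer is a sum of squares of integers. -/
def AllSquares : Prop := ∀ x : 𝓞 K, Pos x → IsSumSq x

/-- `x` is a sum of squares of units. -/
def UnitSquares (x : 𝓞 K) : Prop :=
  ∃ s : Multiset (𝓞 K)ˣ, x = (s.map fun u : (𝓞 K)ˣ => (u : 𝓞 K) ^ 2).sum

omit [NumberField K] in
theorem UnitSquares.add {x y : 𝓞 K} (hx : UnitSquares x) (hy : UnitSquares y) :
    UnitSquares (x + y) := by
  obtain ⟨s, rfl⟩ := hx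
  obtain ⟨t, rfl⟩ := hy
  exact ⟨s + t, by simp⟩

omit [NumberField K] in
theorem UnitSquares.unit_sq (u : (𝓞 K)ˣ) : UnitSquares ((u : 𝓞 K) ^ 2) := ⟨{u}, by simp⟩

omit [NumberField K] in
theorem UnitSquares.mul {x y : 𝓞 K} (hx : UnitSquares x) (hy : UnitSquares y) :
    UnitSquares (x * y) := by
  obtain ⟨s, rfl⟩ := hx
  obtain ⟨t, rfl⟩ := hy
  induction s using Multiset.induction_on with
  | empty => exact ⟨0, by simp⟩
  | cons u s ih =>
    rw [Multiset.map_cons, Multiset.sum_cons, add_mul]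
    refine UnitSquares.add ⟨t.map (u * ·), ?_⟩ ih
    simp [Multiset.map_map, mul_pow, Multiset.sum_map_mul_left]

omit [NumberField K] in
theorem sumSq_nonneg {x : 𝓞 K} (hx : IsSumSq x) (σ : K →+* ℝ) : 0 ≤ ev σ x := by
  induction hx with
  | zero => simp
  | sq_add a _ ih => rw [map_add, map_mul]; exact add_nonneg (mul_self_nonneg _) ih

omit [NumberField K] in
theorem sumSq_split {x : 𝓞 K} (hx : IsSumSq x) (h0 : x ≠ 0) :
    ∃ g r : 𝓞 K, g ≠ 0 ∧ IsSumSq r ∧ x = g ^ 2 + r := by
  induction hx with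
  | zero => exact absurd rfl h0
  | sq_add a hs ih =>
    rcases eq_or_ne a 0 with rfl | ha
    · simp only [mul_zero, zero_add] at h0 ⊢
      exact ih h0
    · exact ⟨a, _, ha, hs, by rw [sq]⟩

omit [NumberField K] in
theorem sumSq_pos {x : 𝓞 K} (hx : IsSumSq x) (h0 : x ≠ 0) : Pos x := fun σ =>
  lt_of_le_of_ne (sumSq_nonneg hx σ) (ev_ne_zero σ h0).symm

variable [IsTotallyReal K]

/-- A totally positive unit is the square of a unit. -/
theorem unit_isSquare (hK : AllSquares K) (e : (𝓞 K)ˣ) (he : Pos (e : 𝓞 K)) :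
    ∃ v : (𝓞 K)ˣ, e = v ^ 2 := by
  obtain ⟨g, r, hg, hr, hx⟩ := sumSq_split (hK _ he) e.ne_zero
  rcases eq_or_ne r 0 with rfl | hr0
  · rw [add_zero] at hx
    have hu : IsUnit g := (isUnit_pow_iff two_ne_zero).1 (hx ▸ e.isUnit)
    exact ⟨hu.unit, Units.ext (by simpa using hx)⟩
  · have h := nrm_lt_nrm (pos_sq hg) he (by rw [hx, add_sub_cancel_left]; exact sumSq_pos hr hr0)
    rw [isUnit_iff_nrm.1 e.isUnit] at h
    exact absurd h (by have := nrm_ne_zero (pow_ne_zero 2 hg); omega)

omit [NumberField K] [IsTotallyReal K] in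
theorem neg_one_mem_torsion : (-1 : (𝓞 K)ˣ) ∈ torsion K :=
  isOfFinOrder_iff_pow_eq_one.2 ⟨2, two_pos, neg_one_sq⟩

theorem card_rank : rank K + 1 = finrank ℚ K := by
  have h := InfinitePlace.card_add_two_mul_card_eq_rank K
  have h' := IsTotallyReal.nrComplexPlaces_eq_zero K
  have hc : Fintype.card (InfinitePlace K) = InfinitePlace.nrRealPlaces K +
      InfinitePlace.nrComplexPlaces K := InfinitePlace.card_eq_nrRealPlaces_add_nrComplexPlaces K
  have hp : 0 < Fintype.card (InfinitePlace K) := Fintype.card_pos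
  rw [Units.rank]
  omega

/-- A product of fundamental units, with sign. -/
def signUnit (p : Bool × (Fin (rank K) → Bool)) : (𝓞 K)ˣ :=
  (if p.1 then -1 else 1) * ∏ i, fundSystem K i ^ (if p.2 i then (1 : ℤ) else 0)

/-- The signs of the conjugates. -/
def signs (u : (𝓞 K)ˣ) (σ : K →+* ℝ) : Bool := decide (0 < ev σ (u : 𝓞 K))

/-- Every signature is that of a unit. -/
theorem exists_unit_signs (hK : AllSquares K) {x : 𝓞 K} (hx : x ≠ 0) :
    ∃ u : (𝓞 K)ˣ, Pos ((u : 𝓞 K) * x) := by
  classical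
  have hinj : Function.Injective fun p => signs (K := K) (signUnit p) := by
    intro p q hpq
    have hpos : Pos ((signUnit p * signUnit q : (𝓞 K)ˣ) : 𝓞 K) := fun σ => by
      have h := congrFun hpq σ
      simp only [signs, decide_eq_decide] at h
      rw [Units.val_mul, map_mul]
      rcases lt_or_gt_of_ne (ev_ne_zero σ (signUnit p).ne_zero) with hp | hp
      · have hq : ev σ (signUnit q : 𝓞 K) < 0 :=
          lt_of_le_of_ne (not_lt.1 fun hq => (h.2 hq).asymm hp) (ev_ne_zero σ (Units.ne_zero _))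
        exact mul_pos_of_neg_of_neg hp hq
      · exact mul_pos hp (h.1 hp)
    obtain ⟨v, hv⟩ := unit_isSquare hK _ hpos
    obtain ⟨⟨z, c⟩, hzc, -⟩ := exist_unique_eq_mul_prod K v
    obtain ⟨_, _, huniq⟩ := exist_unique_eq_mul_prod K (signUnit p * signUnit q)
    have hs : ∀ b : Bool, (if b then -1 else 1 : (𝓞 K)ˣ) ∈ torsion K := fun b => by
      cases b
      · exact one_mem _
      · exact neg_one_mem_torsion
    have h1 := huniq (⟨(if p.1 then -1 else 1) * (if q.1 then -1 else 1),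
        mul_mem (hs _) (hs _)⟩,
      fun i => (if p.2 i then 1 else 0) + (if q.2 i then 1 else 0)) (by
        simp only [signUnit, zpow_add, Finset.prod_mul_distrib]
        exact mul_mul_mul_comm _ _ _ _)
    have h2 := huniq (z ^ 2, fun i => c i * 2) (by
      simp only [hv, hzc, mul_pow, ← Finset.prod_pow, SubmonoidClass.coe_pow, zpow_mul,
        zpow_ofNat])
    have he : ∀ i, p.2 i = q.2 i := fun i => by
      have := congrFun (congrArg Prod.snd (h1.trans h2.symm)) i
      cases hp' : p.2 i <;> cases hq' : q.2 i <;> simp [hp', hq'] at this ⊢ <;> omega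
    have hp2 : p.2 = q.2 := funext he
    refine Prod.ext ?_ hp2
    obtain ⟨σ⟩ := (nonempty_emb : Nonempty (K →+* ℝ))
    have key : ∀ (b b' : Bool) (w : (𝓞 K)ˣ), signs ((if b then -1 else 1) * w) σ =
        signs ((if b' then -1 else 1) * w) σ → b = b' := fun b b' w h => by
      have hw := ev_ne_zero σ w.ne_zero
      simp only [signs, decide_eq_decide] at h
      cases b <;> cases b' <;> simp at h ⊢ <;> rcases lt_or_gt_of_ne hw with hneg | hneg <;>
        first | linarith [h.1 (by linarith)] | linarith [h.2 (by linarith)]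
    have h := congrFun hpq σ
    simp only [signUnit, hp2] at h
    exact key _ _ _ h
  have hcard : Fintype.card (Bool × (Fin (rank K) → Bool)) =
      Fintype.card ((K →+* ℝ) → Bool) := by
    rw [Fintype.card_prod, Fintype.card_fun, Fintype.card_fun, Fintype.card_bool,
      Fintype.card_fin, card_emb, ← card_rank, pow_succ']
  obtain ⟨p, hp⟩ := ((Fintype.bijective_iff_injective_and_card _).2 ⟨hinj, hcard⟩).2
    fun σ => decide (0 < ev σ x)
  refine ⟨signUnit p, fun σ => ?_⟩
  have h := congrFun hp σ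
  simp only [signs, decide_eq_decide] at h
  rw [map_mul]
  rcases lt_or_gt_of_ne (ev_ne_zero σ hx) with hn | hn
  · exact mul_pos_of_neg_of_neg (lt_of_le_of_ne (not_lt.1 fun h' => (h.1 h').asymm hn)
      (ev_ne_zero σ (Units.ne_zero _))) hn
  · exact mul_pos (h.2 hn) hn

/-- Every totally positive integer is a sum of squares of units. -/
theorem unitSquares_of_pos (hK : AllSquares K) {x : 𝓞 K} (hx : Pos x) : UnitSquares x := by
  induction hm : nrm x using Nat.strong_induction_on generalizing x with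
  | _ m ih =>
  have hx0 : x ≠ 0 := fun h => by
    obtain ⟨σ⟩ := (nonempty_emb : Nonempty (K →+* ℝ))
    simpa [h] using hx σ
  obtain ⟨g, r, hg, hr, hxe⟩ := sumSq_split (hK _ hx) hx0
  rcases eq_or_ne r 0 with rfl | hr0
  · rw [add_zero] at hxe
    by_cases hu : IsUnit g
    · rw [hxe, ← hu.unit_spec]
      exact UnitSquares.unit_sq _
    · obtain ⟨u, hpos⟩ := exists_unit_signs hK hg
      have hlt : nrm ((u : 𝓞 K) * g) < m := by
        have h1 : nrm g ≠ 1 := fun h => hu (isUnit_iff_nrm.2 h)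
        have h2 := nrm_ne_zero hg
        rw [← hm, hxe, pow_two, nrm_mul, nrm_mul, isUnit_iff_nrm.1 u.isUnit, one_mul]
        exact lt_mul_of_one_lt_left (by omega) (by omega)
      have h := ih _ hlt hpos rfl
      have he : x = (↑u⁻¹ : 𝓞 K) ^ 2 * (((u : 𝓞 K) * g) * ((u : 𝓞 K) * g)) := by
        rw [hxe]
        have : (↑u⁻¹ : 𝓞 K) * u = 1 := u.inv_mul
        linear_combination -(g ^ 2 * ((↑u⁻¹ : 𝓞 K) * u + 1)) * this
      rw [he]
      exact (UnitSquares.unit_sq u⁻¹).mul (h.mul h)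
  · have h1 := nrm_lt_nrm (pos_sq hg) hx (by rw [hxe, add_sub_cancel_left]; exact sumSq_pos hr hr0)
    have h2 := nrm_lt_nrm (sumSq_pos hr hr0) hx (by rw [hxe, add_sub_cancel_right]; exact pos_sq hg)
    rw [hxe]
    exact (ih _ (hm ▸ h1) (pos_sq hg) rfl).add (ih _ (hm ▸ h2) (sumSq_pos hr hr0) rfl)

omit [IsTotallyReal K] in
/-- A shift by a large even number is totally positive. -/
theorem exists_shift (x : 𝓞 K) : ∃ k : ℕ, Pos (x + 2 * (k : 𝓞 K)) := by
  refine ⟨⌊∑ σ : K →+* ℝ, |ev σ x|⌋₊ + 1, fun σ => ?_⟩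
  have h1 := Finset.single_le_sum (fun τ _ => abs_nonneg (ev τ x)) (Finset.mem_univ σ)
  have h2 := Nat.lt_floor_add_one (∑ τ : K →+* ℝ, |ev τ x|)
  simp only [map_add, map_mul, map_ofNat, map_natCast]
  push_cast
  linarith [neg_abs_le (ev σ x), Nat.cast_nonneg (α := ℝ) ⌊∑ τ : K →+* ℝ, |ev τ x|⌋₊]

/-- `2` is unramified, in the form: if `2 ∣ x²` then `2 ∣ x`. -/
theorem two_dvd_of_dvd_sq (hK : AllSquares K) {x : 𝓞 K} (hx : 2 ∣ x ^ 2) : 2 ∣ x := by
  set I : Ideal (𝓞 K) := Ideal.span {2}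
  have hI : I ≠ ⊥ := by simp [I]
  have hfin : Finite (𝓞 K ⧸ I) := I.finiteQuotientOfFreeOfNeBot hI
  have h2 : (2 : 𝓞 K ⧸ I) = 0 := by
    rw [← map_ofNat (Ideal.Quotient.mk I), Ideal.Quotient.eq_zero_iff_mem]
    exact Ideal.mem_span_singleton_self 2
  have hsurj : Function.Surjective fun a : 𝓞 K ⧸ I => a ^ 2 := fun a => by
    obtain ⟨y, rfl⟩ := Ideal.Quotient.mk_surjective a
    obtain ⟨k, hk⟩ := exists_shift y
    obtain ⟨s, hs⟩ := unitSquares_of_pos hK hk
    have hsum : ∀ s : Multiset (𝓞 K)ˣ, ∃ b : 𝓞 K ⧸ I,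
        b ^ 2 = Ideal.Quotient.mk I (s.map fun u : (𝓞 K)ˣ => (u : 𝓞 K) ^ 2).sum := fun s => by
      induction s using Multiset.induction_on with
      | empty => exact ⟨0, by simp⟩
      | cons u s ih =>
        obtain ⟨b, hb⟩ := ih
        refine ⟨Ideal.Quotient.mk I u + b, ?_⟩
        rw [Multiset.map_cons, Multiset.sum_cons, map_add, ← hb, map_pow, add_sq, h2]
        ring
    obtain ⟨b, hb⟩ := hsum s
    refine ⟨b, show b ^ 2 = _ from ?_⟩
    rw [hb, ← hs, map_add, map_mul, map_ofNat, h2, zero_mul, add_zero]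
  have hinj := Finite.injective_iff_surjective.2 hsurj
  have h0 : Ideal.Quotient.mk I x = 0 := hinj (by
    show Ideal.Quotient.mk I x ^ 2 = 0 ^ 2
    rw [← map_pow, zero_pow two_ne_zero, Ideal.Quotient.eq_zero_iff_mem]
    exact Ideal.mem_span_singleton.2 hx)
  exact Ideal.mem_span_singleton.1 (Ideal.Quotient.eq_zero_iff_mem.1 h0)

/-- `2` is no square. -/
theorem sq_ne_two (hK : AllSquares K) (x : 𝓞 K) : x ^ 2 ≠ 2 := fun h => by
  obtain ⟨y, rfl⟩ := two_dvd_of_dvd_sq hK (x := x) (by rw [h])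
  have h2 : IsUnit (2 : 𝓞 K) := IsUnit.of_mul_eq_one (y ^ 2) (by
    refine mul_left_cancel₀ (two_ne_zero : (2 : 𝓞 K) ≠ 0) ?_
    linear_combination h)
  have hn := isUnit_iff_nrm.1 h2
  have := nrm_eq_prod (2 : 𝓞 K)
  rw [hn] at this
  simp [map_ofNat, card_emb] at this
  have h1 : (1 : ℝ) < 2 ^ finrank ℚ K := one_lt_pow₀ one_lt_two finrank_pos.ne'
  linarith

end Fermat.Agent.SumsOfSquares
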